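import Fermat.Agent.S56.P3.Spec

/-!
# S56 / P3 / CYC + CYCEXP (helper846): `CycloQuotientStatement`, `CycExpExistsStatement`, verbatim
-/

set_option autoImplicit false

noncomputable section

namespace Fermat.Agent.S56.P3.H846

/-- The cyclotomic character mod `p^(n+1)`, with kernel `fixRootsSubgroup p n`. -/
theorem exists_cycloChar (p : ℕ) (hp : p.Prime) (n : ℕ) :
    ∃ χ : GQ →* (ZMod (p ^ (n + 1)))ˣ, fixRootsSubgroup p n = χ.ker := by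
  classical
  have : NeZero (p ^ (n + 1)) := ⟨pow_ne_zero _ hp.ne_zero⟩
  have : NeZero ((p : ℕ) : ℚ) := ⟨by exact_mod_cast hp.ne_zero⟩
  have hN1 : 1 < p ^ (n + 1) := Nat.one_lt_pow (Nat.succ_ne_zero n) hp.one_lt
  obtain ⟨ζ, hζ⟩ := HasEnoughRootsOfUnity.exists_primitiveRoot (AlgebraicClosure ℚ) (p ^ (n + 1))
  let χ : GQ →* (ZMod (p ^ (n + 1)))ˣ := hζ.autToPow ℚ
  have hχ : ∀ σ : GQ, ζ ^ ((χ σ : ZMod (p ^ (n + 1)))).val = σ ζ :=
    fun σ => hζ.autToPow_spec ℚ σ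
  refine ⟨χ, ?_⟩
  ext σ
  rw [MonoidHom.mem_ker, mem_fixRootsSubgroup]
  constructor
  · intro h
    have h1 : σ ζ = ζ := h ζ hζ.pow_eq_one
    have h2 : ζ ^ ((χ σ : ZMod (p ^ (n + 1)))).val = ζ ^ 1 := by rw [hχ σ, h1, pow_one]
    have h3 : ((χ σ : ZMod (p ^ (n + 1)))).val = 1 := hζ.pow_inj (ZMod.val_lt _) hN1 h2
    apply Units.ext
    rw [Units.val_one, ← ZMod.natCast_zmod_val (χ σ : ZMod (p ^ (n + 1))), h3, Nat.cast_one]
  · intro h μ hμ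
    have h1 : σ ζ = ζ := by
      rw [← hχ σ, h, Units.val_one, ZMod.val_one'' (Nat.ne_of_gt hN1), pow_one]
    obtain ⟨i, -, rfl⟩ := hζ.eq_pow_of_pow_eq_one hμ
    rw [map_pow, h1]

/-- **CYC**, verbatim. -/
theorem cycloQuotient : CycloQuotientStatement := by
  intro p hp hp2 n
  obtain ⟨χ, hχ⟩ := exists_cycloChar p hp.out n
  rw [hχ]
  refine ⟨MonoidHom.normal_ker χ, ?_⟩
  have : IsCyclic (ZMod (p ^ (n + 1)))ˣ := ZMod.isCyclic_units_of_prime_pow p hp.out hp2 (n + 1)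
  exact isCyclic_of_injective (QuotientGroup.kerLift χ) (QuotientGroup.kerLift_injective χ)

/-- **CYCEXP**, verbatim. -/
theorem cycExpExists : CycExpExistsStatement := by
  intro p hp σ
  classical
  have : NeZero p := ⟨hp.out.ne_zero⟩
  have : NeZero ((p : ℕ) : ℚ) := ⟨by exact_mod_cast hp.out.ne_zero⟩
  obtain ⟨ζ, hζ⟩ := HasEnoughRootsOfUnity.exists_primitiveRoot (AlgebraicClosure ℚ) p
  refine ⟨((hζ.autToPow ℚ σ : (ZMod p)ˣ) : ZMod p).val, fun μ hμ => ?_⟩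
  have h1 : ζ ^ ((hζ.autToPow ℚ σ : (ZMod p)ˣ) : ZMod p).val = σ ζ := hζ.autToPow_spec ℚ σ
  obtain ⟨i, -, rfl⟩ := hζ.eq_pow_of_pow_eq_one hμ
  rw [map_pow, ← h1, ← pow_mul, ← pow_mul, mul_comm]

end Fermat.Agent.S56.P3.H846

end
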