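import Fermat.Agent.S56.P3.Glue

/-!
# S56 / P3 / DETORD (helper846): `DetOrderStatement`, verbatim

The mod `p` cyclotomic character of `G_ℚ` is onto `𝔽_p^×`; hence a cyclotomic determinant takes a
value of exact order `p - 1`.
-/

set_option autoImplicit false

open Polynomial

noncomputable section

namespace Fermat.Agent.S56.P3.H846

/-- For `a` prime to `p` there is `γ ∈ G_ℚ` acting on `μ_p` by `μ ↦ μ ^ a`. -/
theorem exists_isCycExp (p : ℕ) (hp : p.Prime) (a : ℕ) (ha : a.Coprime p) :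
    ∃ γ : GQ, Fermat.Agent.S56.IsCycExp p γ a := by
  classical
  have : NeZero p := ⟨hp.ne_zero⟩
  have : NeZero ((p : ℕ) : ℚ) := ⟨by exact_mod_cast hp.ne_zero⟩
  obtain ⟨ζ, hζ⟩ := HasEnoughRootsOfUnity.exists_primitiveRoot (AlgebraicClosure ℚ) p
  have hζa : IsPrimitiveRoot (ζ ^ a) p := hζ.pow_of_coprime a ha
  have h1 : minpoly ℚ ζ = cyclotomic p ℚ := (cyclotomic_eq_minpoly_rat hζ hp.pos).symm
  have h2 : minpoly ℚ (ζ ^ a) = cyclotomic p ℚ := (cyclotomic_eq_minpoly_rat hζa hp.pos).symm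
  have : Algebra.IsAlgebraic ℚ (AlgebraicClosure ℚ) := AlgebraicClosure.isAlgebraic ℚ
  have : IsAlgClosure ℚ (AlgebraicClosure ℚ) := ⟨inferInstance, inferInstance⟩
  have : Normal ℚ (AlgebraicClosure ℚ) := IsAlgClosure.normal ℚ (AlgebraicClosure ℚ)
  have halg : IsAlgebraic ℚ ζ := Algebra.IsAlgebraic.isAlgebraic ζ
  have hroot : aeval (ζ ^ a) (minpoly ℚ ζ) = 0 := by
    rw [h1, ← h2]; exact minpoly.aeval ℚ (ζ ^ a)
  obtain ⟨γ, hγ⟩ := minpoly.exists_algEquiv_of_root' halg hroot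
  refine ⟨γ, fun μ hμ => ?_⟩
  obtain ⟨i, -, rfl⟩ := hζ.eq_pow_of_pow_eq_one hμ
  rw [map_pow, hγ, ← pow_mul, ← pow_mul, mul_comm]

/-- **DETORD**, verbatim. -/
theorem detOrder : DetOrderStatement := by
  intro k _ p hp ρbar hdet
  classical
  have hp0 : (p : k) = 0 := natCast_eq_zero_of_detIsCyclotomic hdet
  have : CharP k p := (CharP.charP_iff_prime_eq_zero hp.out).2 hp0
  obtain ⟨g, hg⟩ := IsCyclic.exists_generator (α := (ZMod p)ˣ)
  have hord : orderOf g = p - 1 := by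
    rw [orderOf_eq_card_of_forall_mem_zpowers hg, Nat.card_eq_fintype_card, ZMod.card_units]
  set a : ℕ := (g : ZMod p).val with ha_def
  have hacast : ((a : ℕ) : ZMod p) = (g : ZMod p) := ZMod.natCast_zmod_val _
  have hacop : a.Coprime p := by
    have hu : IsUnit ((a : ℕ) : ZMod p) := by rw [hacast]; exact g.isUnit
    exact (ZMod.isUnit_iff_coprime a p).1 hu
  obtain ⟨γ, hγ⟩ := exists_isCycExp p hp.out a hacop
  refine ⟨γ, ?_⟩
  rw [det_eq_of_isCycExp hdet hγ]
  let φ : ZMod p →+* k := ZMod.castHom (dvd_refl p) k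
  have hφ : Function.Injective φ := φ.injective
  have e : ((a : ℕ) : k) = φ (g : ZMod p) := by
    rw [← hacast, map_natCast]
  have h1 := orderOf_injective (φ : ZMod p →* k) hφ (g : ZMod p)
  rw [e]
  exact h1.trans (orderOf_units.trans hord)

end Fermat.Agent.S56.P3.H846

end
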