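import Fermat.Agent.S56.H846.Mat2Reg

/-!
# S56 / P3 / REG (helper846): matrix core, general determinant

`R : G →* M₂(k)` (char `k ≠ 2`), `H ⊴ G`, `G = ⟨g₀⟩ H`; if every element of `R(H)` has a repeated
eigenvalue (`tr² = 4 det`) and `R(g₀)` has an eigenvector, then `R(G)` has a common eigenvector.
Mathlib only.
-/

set_option autoImplicit false

namespace Fermat.Agent.S56.P3.H846

open Matrix Fermat.Agent.S56.H846

variable {k : Type*} [Field k]

/-- `det (u - c) = det u - c tr u + c²` for `2 × 2` matrices. -/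
theorem det_sub_smul_one_fin_two (c : k) (u : Matrix (Fin 2) (Fin 2) k) :
    (u - c • (1 : Matrix (Fin 2) (Fin 2) k)).det = u.det - c * u.trace + c ^ 2 := by
  simp only [Matrix.det_fin_two, Matrix.trace_fin_two, Matrix.sub_apply, Matrix.smul_apply,
    Matrix.one_apply_eq, Matrix.one_apply_ne, smul_eq_mul, ne_eq, Fin.isValue,
    zero_ne_one, not_false_eq_true, one_ne_zero, sub_zero, mul_one, mul_zero]
  ring

/-- **Key lemma, general form.** -/
theorem exists_common_eigenvector_of_not_regular
    (h2 : (2 : k) ≠ 0) {G : Type*} [Group G]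
    (R : G →* Matrix (Fin 2) (Fin 2) k) (H : Subgroup G) [hN : H.Normal]
    (hH : ∀ h ∈ H, (R h).trace ^ 2 = 4 * (R h).det)
    (g₀ : G) (hg₀ : ∀ g : G, ∃ j : ℤ, g * g₀ ^ j ∈ H)
    (hev : ∃ v : Fin 2 → k, v ≠ 0 ∧ ∃ c : k, (R g₀).mulVec v = c • v) :
    ∃ v : Fin 2 → k, v ≠ 0 ∧ ∀ g : G, ∃ c : k, (R g).mulVec v = c • v := by
  have h4 : (4 : k) ≠ 0 := by
    have : (4 : k) = 2 * 2 := by norm_num
    rw [this]
    exact mul_ne_zero h2 h2
  by_cases hsc : ∀ h ∈ H, ∃ c : k, R h = c • (1 : Matrix (Fin 2) (Fin 2) k)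
  · -- all of `R(H)` is scalar
    obtain ⟨v, hv, c, hc⟩ := hev
    refine ⟨v, hv, fun g => ?_⟩
    rw [← mem_eigStab R v hv]
    have hHle : H ≤ eigStab R v hv := by
      intro h hh
      obtain ⟨d, hd⟩ := hsc h hh
      exact ⟨d, by rw [hd, Matrix.smul_mulVec, Matrix.one_mulVec]⟩
    have hg0 : g₀ ∈ eigStab R v hv := ⟨c, hc⟩
    obtain ⟨j, hj⟩ := hg₀ g
    have : g = (g * g₀ ^ j) * (g₀ ^ j)⁻¹ := by group
    rw [this]
    exact mul_mem (hHle hj) (inv_mem (zpow_mem hg0 j))
  · push Not at hsc
    obtain ⟨σ, hσ, hσns⟩ := hsc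
    have hHσ := hH σ hσ
    set u := R σ with hu_def
    set l : k := u.trace / 2 with hl_def
    have htl : u.trace = 2 * l := by rw [hl_def]; field_simp
    have hdl : u.det = l ^ 2 := by
      have : (4 : k) * u.det = 4 * l ^ 2 := by rw [← hHσ, htl]; ring
      exact mul_left_cancel₀ h4 this
    have hdet_ne : ∀ g : G, (R g).det ≠ 0 := by
      intro g hg
      have : (R g).det * (R g⁻¹).det = 1 := by
        rw [← Matrix.det_mul, ← map_mul, mul_inv_cancel, map_one, Matrix.det_one]
      rw [hg, zero_mul] at this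
      exact zero_ne_one this
    have hl0 : l ≠ 0 := by
      intro h0
      apply hdet_ne σ
      rw [← hu_def, hdl, h0]; ring
    set ν : Matrix (Fin 2) (Fin 2) k := u - l • (1 : Matrix (Fin 2) (Fin 2) k) with hν_def
    have hu : u = l • (1 : Matrix (Fin 2) (Fin 2) k) + ν := by
      rw [hν_def]; abel
    have hν0 : ν ≠ 0 := by
      intro h0
      rw [h0, add_zero] at hu
      exact hσns l hu
    have htν : ν.trace = 0 := by
      rw [hν_def, Matrix.trace_sub, Matrix.trace_smul, htl, Matrix.trace_one, smul_eq_mul]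
      simp only [Fintype.card_fin, Nat.cast_ofNat]
      ring
    have hdν : ν.det = 0 := by
      rw [hν_def, det_sub_smul_one_fin_two, htl, hdl]
      ring
    have hνν : ν * ν = 0 := nil_mul_self_fin_two ν htν hdν
    have huu : u * u = (l ^ 2) • (1 : Matrix (Fin 2) (Fin 2) k) + (2 * l) • ν := by
      rw [hu, add_mul, mul_add, mul_add, hνν, Matrix.smul_mul, Matrix.smul_mul, Matrix.mul_smul,
        Matrix.mul_smul, Matrix.one_mul, Matrix.one_mul, Matrix.mul_one, add_zero, smul_smul,
        add_assoc, ← add_smul, ← two_mul, sq]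
    -- the key vanishing of traces
    have key : ∀ h ∈ H, (R h * ν).trace = 0 := by
      intro h hh
      have E0 := hH h hh
      have E1 := hH (h * σ) (mul_mem hh hσ)
      have E2 := hH (h * σ * σ) (mul_mem (mul_mem hh hσ) hσ)
      set c := (R h * ν).trace with hc
      set t := (R h).trace with ht
      set d := (R h).det with hd
      have e1 : (R (h * σ)).trace = l * t + c := by
        rw [map_mul, ← hu_def, hu, mul_add, Matrix.trace_add, Matrix.mul_smul, Matrix.mul_one,
          Matrix.trace_smul, smul_eq_mul]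
      have d1 : (R (h * σ)).det = d * l ^ 2 := by
        rw [map_mul, Matrix.det_mul, ← hu_def, hdl]
      have e2 : (R (h * σ * σ)).trace = l ^ 2 * t + 2 * l * c := by
        rw [map_mul, map_mul, ← hu_def, Matrix.mul_assoc, huu, mul_add, Matrix.trace_add,
          Matrix.mul_smul, Matrix.mul_one, Matrix.trace_smul, Matrix.mul_smul,
          Matrix.trace_smul, smul_eq_mul, smul_eq_mul]
      have d2 : (R (h * σ * σ)).det = d * l ^ 4 := by
        rw [map_mul, map_mul, Matrix.det_mul, Matrix.det_mul, ← hu_def, hdl]; ring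
      rw [e1, d1] at E1
      rw [e2, d2] at E2
      have A : 2 * l * t * c + c ^ 2 = 0 := by
        linear_combination E1 - l ^ 2 * E0
      have B' : (4 * l ^ 2) * (l * t * c + c ^ 2) = 0 := by
        linear_combination E2 - l ^ 4 * E0
      have B : l * t * c + c ^ 2 = 0 := by
        rcases mul_eq_zero.1 B' with hB | hB
        · exact absurd hB (mul_ne_zero h4 (pow_ne_zero 2 hl0))
        · exact hB
      have hc2 : c ^ 2 = 0 := by linear_combination 2 * B - A
      exact pow_eq_zero_iff (two_ne_zero) |>.1 hc2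
    -- a nonzero vector in the image of `ν`
    obtain ⟨x, hx⟩ : ∃ x : Fin 2 → k, ν.mulVec x ≠ 0 := by
      by_contra hcon
      push Not at hcon
      apply hν0
      ext i j
      have := congrFun (hcon (Pi.single j 1)) i
      simpa using this
    refine ⟨ν.mulVec x, hx, fun g => ?_⟩
    rw [← mem_eigStab R _ hx]
    -- the product of the two traces vanishes
    have hprod : (R g * ν).trace * (R g⁻¹ * ν).trace = 0 := by
      have hconj : g * σ * g⁻¹ ∈ H := hN.conj_mem σ hσ g
      have h0 := key _ hconj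
      have hgg : R g * R g⁻¹ = 1 := by rw [← map_mul, mul_inv_cancel, map_one]
      have e1 : R g * ν * R g⁻¹ * ν = (R g⁻¹ * ν).trace • (R g * ν) := by
        rw [Matrix.mul_assoc (R g * ν), Matrix.mul_assoc (R g), ← Matrix.mul_assoc ν,
          nil_mul_mul_nil_fin_two ν (R g⁻¹) htν hdν, Matrix.mul_smul]
      have e : R (g * σ * g⁻¹) * ν = l • ν + (R g⁻¹ * ν).trace • (R g * ν) := by
        rw [map_mul, map_mul, ← hu_def, hu, mul_add, add_mul, add_mul, e1, Matrix.mul_smul,
          Matrix.mul_one, Matrix.smul_mul, Matrix.smul_mul, hgg, Matrix.one_mul]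
      rw [e, Matrix.trace_add, Matrix.trace_smul, htν, smul_zero, zero_add, Matrix.trace_smul,
        smul_eq_mul] at h0
      rw [mul_comm]; exact h0
    have hmem : ∀ g' : G, (R g' * ν).trace = 0 → g' ∈ eigStab R (ν.mulVec x) hx := by
      intro g' hg'
      have h1 : ν * R g' * ν = 0 := by
        rw [nil_mul_mul_nil_fin_two ν (R g') htν hdν, hg', zero_smul]
      have h2' : ν.mulVec ((R g').mulVec (ν.mulVec x)) = 0 := by
        rw [Matrix.mulVec_mulVec, Matrix.mulVec_mulVec, h1, Matrix.zero_mulVec]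
      exact exists_smul_of_mulVec_eq_zero ν htν x _ hx h2'
    rcases mul_eq_zero.1 hprod with h | h
    · exact hmem g h
    · have := hmem g⁻¹ h
      simpa using inv_mem this

end Fermat.Agent.S56.P3.H846
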