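import Fermat.Agent.S56.P3.Spec
import Fermat.Agent.S56.P3.H846.Mat2Gen

/-!
# S56 / P3 / REG (helper846): `ExistsRegularStatement`, verbatim

Direct proof (does not use SPAN): if no element of `Δ` is regular, then `ρ(Γ)` has a common
eigenvector in `V`, contradicting absolute irreducibility.  Uses `absIrr`, `split`, `char_p`,
`finrank_eq` of `TWHyp` only (not `tw`).
-/

set_option autoImplicit false
set_option linter.unusedSectionVars false

open Polynomial
open scoped TensorProduct

noncomputable section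

namespace Fermat.Agent.S56.P3.H846

section Abstract

variable {k : Type} [Field k] {V : Type} [AddCommGroup V] [Module k V] [Module.Finite k V]
variable {Γ : Type} [Group Γ]

/-- `ρ` in matrix form with respect to a basis. -/
def matOf (b : Module.Basis (Fin 2) k V) (ρ : Γ →* Module.End k V) :
    Γ →* Matrix (Fin 2) (Fin 2) k where
  toFun σ := LinearMap.toMatrix b b (ρ σ)
  map_one' := by rw [map_one]; exact LinearMap.toMatrix_one _
  map_mul' σ τ := by rw [map_mul]; exact LinearMap.toMatrix_mul _ _ _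

theorem matOf_apply (b : Module.Basis (Fin 2) k V) (ρ : Γ →* Module.End k V) (σ : Γ) :
    matOf b ρ σ = LinearMap.toMatrix b b (ρ σ) := rfl

theorem charpoly_matOf (b : Module.Basis (Fin 2) k V) (ρ : Γ →* Module.End k V) (σ : Γ) :
    (matOf b ρ σ).charpoly = LinearMap.charpoly (ρ σ) :=
  LinearMap.charpoly_toMatrix _ _

theorem det_matOf (b : Module.Basis (Fin 2) k V) (ρ : Γ →* Module.End k V) (σ : Γ) :
    (matOf b ρ σ).det = LinearMap.det (ρ σ) :=
  LinearMap.det_toMatrix _ _

theorem trace_matOf (b : Module.Basis (Fin 2) k V) (ρ : Γ →* Module.End k V) (σ : Γ) :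
    (matOf b ρ σ).trace = LinearMap.trace k V (ρ σ) :=
  (LinearMap.trace_eq_matrix_trace k b (ρ σ)).symm

/-- Trace and determinant from a factorisation of the characteristic polynomial. -/
theorem trace_det_matOf_of_charpoly_eq (b : Module.Basis (Fin 2) k V) (ρ : Γ →* Module.End k V)
    (σ : Γ) (α β : k) (h : LinearMap.charpoly (ρ σ) = (X - C α) * (X - C β)) :
    (matOf b ρ σ).trace = α + β ∧ (matOf b ρ σ).det = α * β := by
  have h1 : (matOf b ρ σ).charpoly = (X - C α) * (X - C β) := by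
    rw [charpoly_matOf]; exact h
  rw [Matrix.charpoly_fin_two] at h1
  have e : (X - C α) * (X - C β) = X ^ 2 - C (α + β) * X + C (α * β) := by
    simp only [map_add, map_mul]; ring
  rw [e] at h1
  have c1 := congrArg (fun q : k[X] => q.coeff 1) h1
  have c0 := congrArg (fun q : k[X] => q.coeff 0) h1
  simp only [coeff_add, coeff_sub, coeff_X_pow, coeff_C_mul, coeff_X_one,
    coeff_X_zero, mul_one, mul_zero, coeff_C] at c1 c0
  norm_num at c1 c0
  exact ⟨by linear_combination -c1, c0⟩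

/-- An eigenvector of the matrix gives an eigenvector of `ρ σ`. -/
theorem rho_apply_of_mulVec (b : Module.Basis (Fin 2) k V) (ρ : Γ →* Module.End k V) (σ : Γ)
    (v : Fin 2 → k) (c : k) (h : (matOf b ρ σ).mulVec v = c • v) :
    ρ σ (b.equivFun.symm v) = c • b.equivFun.symm v := by
  apply b.equivFun.injective
  rw [map_smul, LinearEquiv.apply_symm_apply]
  have := LinearMap.toMatrix_mulVec_repr b b (ρ σ) (b.equivFun.symm v)
  rw [← matOf_apply] at this
  have hr : (b.repr (b.equivFun.symm v) : Fin 2 → k) = v := b.equivFun.apply_symm_apply v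
  rw [hr, h] at this
  rw [this]
  rfl

/-- An eigenvector of `ρ σ` gives an eigenvector of the matrix. -/
theorem mulVec_of_rho_apply (b : Module.Basis (Fin 2) k V) (ρ : Γ →* Module.End k V) (σ : Γ)
    (w : V) (c : k) (h : ρ σ w = c • w) :
    (matOf b ρ σ).mulVec (b.equivFun w) = c • b.equivFun w := by
  have := LinearMap.toMatrix_mulVec_repr b b (ρ σ) w
  rw [← matOf_apply, h] at this
  rw [← map_smul]
  exact this

/-- Under `TWHyp`, `ρ` has no stable line over `k`. -/
theorem not_exists_stable_line_of_twHyp (ρ : Γ →* Module.End k V) (p : ℕ) (hT : TWHyp ρ p) :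
    ¬ ∃ w : V, w ≠ 0 ∧ ∀ g : Γ, ∃ c : k, ρ g w = c • w := by
  rintro ⟨w, hw, hstab⟩
  let x : AlgebraicClosure k ⊗[k] V := (1 : AlgebraicClosure k) ⊗ₜ[k] w
  have hx : x ≠ 0 := by
    intro h
    apply hw
    have hinj := Module.Flat.tensorProduct_mk_injective k V (AlgebraicClosure k)
    apply hinj
    rw [map_zero]
    exact h
  let W : Submodule (AlgebraicClosure k) (AlgebraicClosure k ⊗[k] V) :=
    Submodule.span (AlgebraicClosure k) {x}
  have hWstab : ∀ g : Γ, ∀ y ∈ W, (ρ g).baseChange (AlgebraicClosure k) y ∈ W := by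
    intro g y hy
    obtain ⟨a, rfl⟩ := Submodule.mem_span_singleton.1 hy
    obtain ⟨c, hc⟩ := hstab g
    have e : (ρ g).baseChange (AlgebraicClosure k) x =
        (algebraMap k (AlgebraicClosure k) c) • x := by
      show (ρ g).baseChange (AlgebraicClosure k) ((1 : AlgebraicClosure k) ⊗ₜ[k] w) = _
      rw [LinearMap.baseChange_tmul, hc, TensorProduct.tmul_smul, algebraMap_smul]
    rw [map_smul, e]
    exact Submodule.smul_mem _ _ (Submodule.smul_mem _ _ (Submodule.mem_span_singleton_self x))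
  rcases hT.absIrr W hWstab with h | h
  · exact hx (Submodule.span_singleton_eq_bot.1 h)
  · have h1 : Module.finrank (AlgebraicClosure k) W = 2 := by
      rw [h, finrank_top, Module.finrank_baseChange, hT.finrank_eq]
    have h2 : Module.finrank (AlgebraicClosure k) W = 1 := finrank_span_singleton hx
    omega

/-- A cyclic quotient gives `Γ = ⟨g₀⟩ Δ`. -/
theorem exists_gen_of_isCyclic_quotient (Δ : Subgroup Γ) [hN : Δ.Normal]
    (hcyc : IsCyclic (Γ ⧸ Δ)) : ∃ g₀ : Γ, ∀ g : Γ, ∃ j : ℤ, g * g₀ ^ j ∈ Δ := by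
  obtain ⟨x, hx⟩ := hcyc.exists_generator
  obtain ⟨g₀, rfl⟩ := QuotientGroup.mk_surjective x
  refine ⟨g₀, fun g => ?_⟩
  obtain ⟨j, hj⟩ := Subgroup.mem_zpowers_iff.1 (hx (g : Γ ⧸ Δ))
  refine ⟨-j, ?_⟩
  have h1 : ((g * g₀ ^ (-j) : Γ) : Γ ⧸ Δ) = 1 := by
    rw [QuotientGroup.mk_mul, QuotientGroup.mk_zpow, zpow_neg, hj, mul_inv_cancel]
  exact (QuotientGroup.eq_one_iff _).1 h1

end Abstract

/-- **REG**, verbatim. -/
theorem existsRegular : ExistsRegularStatement := by
  intro k _ V _ _ _ Γ _ ρ p hp hp2 hT Δ hΔ hcyc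
  by_contra hcon
  push Not at hcon
  have h2 : (2 : k) ≠ 0 := by
    intro h2
    obtain ⟨m, hm⟩ := (Nat.Prime.eq_two_or_odd' hp.out).resolve_left hp2
    have hp0 := hT.char_p
    rw [hm] at hp0
    push_cast at hp0
    rw [h2, zero_mul, zero_add] at hp0
    exact one_ne_zero hp0
  let b : Module.Basis (Fin 2) k V := Module.finBasisOfFinrankEq k V hT.finrank_eq
  have hH : ∀ h ∈ Δ, (matOf b ρ h).trace ^ 2 = 4 * (matOf b ρ h).det := by
    intro σ hσ
    obtain ⟨α, β, hαβ⟩ := hT.split σ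
    by_cases hab : α = β
    · subst hab
      obtain ⟨ht, hd⟩ := trace_det_matOf_of_charpoly_eq b ρ σ α α hαβ
      rw [ht, hd]; ring
    · exact absurd ⟨α, β, hab, hαβ⟩ (hcon σ hσ)
  obtain ⟨g₀, hg₀⟩ := exists_gen_of_isCyclic_quotient Δ hcyc
  have hev : ∃ v : Fin 2 → k, v ≠ 0 ∧ ∃ c : k, (matOf b ρ g₀).mulVec v = c • v := by
    obtain ⟨α, β, hαβ⟩ := hT.split g₀
    have hroot : (LinearMap.charpoly (ρ g₀)).IsRoot α := by
      rw [hαβ, IsRoot, eval_mul, eval_sub, eval_X, eval_C, sub_self, zero_mul]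
    have hev := (Module.End.hasEigenvalue_iff_isRoot_charpoly (ρ g₀) α).2 hroot
    obtain ⟨w, hw⟩ := hev.exists_hasEigenvector
    refine ⟨b.equivFun w, ?_, α, ?_⟩
    · intro h0
      exact hw.2 (b.equivFun.map_eq_zero_iff.1 h0)
    · exact mulVec_of_rho_apply b ρ g₀ w α hw.apply_eq_smul
  obtain ⟨v, hv, hall⟩ :=
    exists_common_eigenvector_of_not_regular h2 (matOf b ρ) Δ hH g₀ hg₀ hev
  apply not_exists_stable_line_of_twHyp ρ p hT
  refine ⟨b.equivFun.symm v, ?_, fun σ => ?_⟩
  · intro h0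
    exact hv (b.equivFun.symm.map_eq_zero_iff.1 h0)
  · obtain ⟨c, hc⟩ := hall σ
    exact ⟨c, rho_apply_of_mulVec b ρ σ v c hc⟩

end Fermat.Agent.S56.P3.H846

end
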